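import Mathlib
import Fermat.Agent.LT.T7.B981.PairDatSpec
import Fermat.Agent.LT.T3.M.Explicit

/-!
# Row LT, tower T7, node `DatC981`, LEAF D.1 `B981.UpDatC981 K` (helper413, registry row 2979)

OFF-MAIN, never land.  Frozen Prop: `LT/T7/B981/PairDatSpec.lean` (helper981@0a611b59a,
sha256 df231e9868945811).  Complete proof, nothing assumed, new names only (suffix `413`).

Route (the docstring of the leaf):
* `T3.M.EKCoreC` (closed: `(T3.M.openM_c K).core`) for `ι₁ = P`, `ι₂ = InfinitePlace K` gives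
  `Φ ∈ SymSpanCrd`, telescoping along `c0 = coordTorM K P e α`, `ftCrd Φ ≠ 0`;
* `Submodule.mem_span_set'`: `Φ = ∑ i, c i • pureCrd (A' i) (β' i)`; the coefficient `c i` is
  absorbed in `β' i w₀` for ONE infinite place `w₀`; `A i v = 0` outside `P`;
* `T3.satakeLoc_closed` gives `f₀ i v`; `T3.abelCplxSmooth_closed` gives `μc₀`, `κc₀ ≠ 0`, `F i w`;
  `μc = t • μc₀` (uniqueness of the Haar measure of `GL₂(ℂ)`), so `κc = t κc₀`.

    upDatC413 (K) : B981.UpDatC981 K          (VERBATIM, UNCONDITIONAL)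
-/

set_option autoImplicit false
set_option linter.style.haveILetI false
set_option linter.unusedVariables false

open AutomorphicForm IsDedekindDomain NumberField MeasureTheory

noncomputable section

namespace Fermat.Agent.LT.T7.B981.H413

open Fermat.Agent.LT Fermat.Agent.LT.T3.AS

/-! ## 1. Scalar multiples of symmetric bumps -/

theorem isSymBump_const_mul413 {β : ℝ × ℝ → ℂ} (hβ : IsSymBump β) (c : ℂ) :
    IsSymBump (fun x => c * β x) := by
  obtain ⟨h1, h2, h3⟩ := hβ
  refine ⟨contDiff_const.mul h1, ?_, fun x y => by simp only [h3 x y]⟩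
  exact h2.mono fun x hx => by
    rw [Function.mem_support] at hx ⊢
    intro h0
    exact hx (by simp [h0])

/-! ## 2. The Haar measures of `GL₂(ℂ)` are proportional -/

theorem actsBy_of_haar413 {μc μc₀ : @Measure (GL (Fin 2) ℂ) (borel _)}
    (hμc : @Measure.IsHaarMeasure _ _ _ (borel _) μc)
    (hμc₀ : @Measure.IsHaarMeasure _ _ _ (borel _) μc₀) :
    ∃ t : ℂ, t ≠ 0 ∧ ∀ (F : GL (Fin 2) ℂ → ℂ) (C : ℂ),
      @ActsBy (borel _) μc₀ F C → @ActsBy (borel _) μc F (t * C) := by
  letI : MeasurableSpace (GL (Fin 2) ℂ) := borel _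
  haveI : BorelSpace (GL (Fin 2) ℂ) := ⟨rfl⟩
  haveI : SecondCountableTopology (GL (Fin 2) ℂ) := T3.H57.secondCountable_GL2C57
  haveI : LocallyCompactSpace (GL (Fin 2) ℂ) := T3.H57.locallyCompact_GL2C57
  haveI := hμc
  haveI := hμc₀
  have hc : μc = Measure.haarScalarFactor μc μc₀ • μc₀ :=
    Measure.isMulLeftInvariant_eq_smul μc μc₀
  have hpos : 0 < Measure.haarScalarFactor μc μc₀ :=
    Measure.haarScalarFactor_pos_of_isHaarMeasure μc μc₀
  refine ⟨(((Measure.haarScalarFactor μc μc₀ : NNReal) : ℝ) : ℂ), ?_, fun F C hF Ψ hΨ y => ?_⟩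
  · have : ((Measure.haarScalarFactor μc μc₀ : NNReal) : ℝ) ≠ 0 := by
      exact_mod_cast hpos.ne'
    exact_mod_cast this
  · have h1 : ∫ h, Ψ (y * h) * F h ∂μc
        = ∫ h, Ψ (y * h) * F h ∂(Measure.haarScalarFactor μc μc₀ • μc₀) := by
      rw [← hc]
    rw [h1, integral_smul_nnreal_measure, hF Ψ hΨ y, NNReal.smul_def, Complex.real_smul]
    ring

/-! ## 3. The leaf -/

variable (K : Type) [Field K] [NumberField K]

/-- **LEAF D.1** (`B981.UpDatC981 K`, VERBATIM). -/
theorem upDatC413 : B981.UpDatC981 K := by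
  classical
  intro _hTC μc hμc 𝔫 P e a₀ α hfr
  -- the core
  haveI : Nonempty P := hfr.nonempty.to_subtype
  obtain ⟨Φ, hΦspan, hΦtel, hΦft⟩ :=
    (T3.M.openM_c K).core P (InfinitePlace K) (fun v : P => e v)
      (fun w : InfinitePlace K => Real.log (w (α : K))) (fun v => hfr.pos v.1 v.2)
  -- the finite sum
  obtain ⟨N, c, g, hsum⟩ := Submodule.mem_span_set'.1 hΦspan
  have hg : ∀ i : Fin N, ∃ (A' : P → ℤ × ℤ → ℂ) (β' : InfinitePlace K → ℝ × ℝ → ℂ),
      (∀ v, IsSymFin (A' v)) ∧ (∀ w, IsSymBump (β' w)) ∧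
        ((g i : T3.M.Crd P (InfinitePlace K) → ℂ)) = T3.M.pureCrd A' β' := fun i => (g i).2
  choose A' β' hA' hβ' hgi using hg
  -- the local Abel pairs for the measure of the station
  obtain ⟨μc₀, hμc₀, κc₀, hκc₀, hAbel⟩ := T3.abelCplxSmooth_closed
  obtain ⟨t, ht, hact⟩ := actsBy_of_haar413 hμc hμc₀
  -- one infinite place
  obtain ⟨w₀⟩ : Nonempty (InfinitePlace K) := inferInstance
  -- the data
  set A : Fin N → HeightOneSpectrum (𝓞 K) → ℤ × ℤ → ℂ :=
    fun i v => if h : v ∈ P then A' i ⟨v, h⟩ else 0 with hAdef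
  set β : Fin N → InfinitePlace K → ℝ × ℝ → ℂ :=
    fun i w x => (if w = w₀ then c i else 1) * β' i w x with hβdef
  have hAA' : ∀ i, (fun v : P => A i v) = A' i := by
    intro i
    funext v
    simp only [hAdef, dif_pos v.2, Subtype.coe_eta]
  have hAsym : ∀ i v, IsSymFin (A i v) := by
    intro i v
    by_cases hv : v ∈ P
    · simp only [hAdef, dif_pos hv]
      exact hA' i ⟨v, hv⟩
    · simp only [hAdef, dif_neg hv]
      exact ⟨by simp, fun _ _ => rfl⟩
  have hβsym : ∀ i w, IsSymBump (β i w) := fun i w =>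
    isSymBump_const_mul413 (hβ' i w) _
  choose f₀ hpair using fun (i : Fin N) (v : HeightOneSpectrum (𝓞 K)) =>
    T3.satakeLoc_closed K v (A i v) (hAsym i v)
  choose F hF1 hFs hF2 hF3 using fun (i : Fin N) (w : InfinitePlace K) =>
    hAbel (β i w) (hβsym i w)
  -- the pure tensors
  have hpure : ∀ (i : Fin N) (p : T3.M.CoordM K P),
      T3.M.pureCoordM K P (A i) (β i) p = c i * (g i : T3.M.Crd P (InfinitePlace K) → ℂ) p := by
    intro i p
    unfold T3.M.pureCoordM
    rw [hAA' i, hgi i]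
    unfold T3.M.pureCrd
    simp only [hβdef]
    rw [Finset.prod_mul_distrib, Finset.prod_ite_eq' Finset.univ w₀ (fun _ => c i)]
    simp only [Finset.mem_univ, if_true]
    ring
  have hΦeq : (fun p : T3.M.CoordM K P => ∑ i : Fin N, T3.M.pureCoordM K P (A i) (β i) p)
      = Φ := by
    funext p
    rw [← hsum]
    simp only [hpure, Finset.sum_apply, Pi.smul_apply, smul_eq_mul]
  refine ⟨N, t * κc₀, A, β, f₀, F, mul_ne_zero ht hκc₀, hAsym, hβsym,
    fun i v _ => hpair i v, hF1, hFs, hF2, ?_, ?_, ?_⟩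
  · intro i w
    have := hact (F i w) _ (hF3 i w)
    rwa [← mul_assoc] at this
  · intro Δ
    have h := hΦtel Δ
    have hfun : (fun j : ℤ => ∑ i : Fin N,
        T3.M.pureCoordM K P (A i) (β i) (Δ + j • T3.M.coordTorM K P e α))
        = fun j : ℤ => Φ (Δ + j • T3.M.c0 (fun v : P => e v)
            (fun w : InfinitePlace K => Real.log (w (α : K)))) := by
      funext j
      exact congrFun hΦeq _
    rw [hfun]
    exact h
  · intro z₁ z₂ hz₁ hz₂ hz
    unfold T3.M.ftCoordM
    rw [hΦeq]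
    refine hΦft (fun v : P => z₁ v) (fun v : P => z₂ v) (fun v => hz₁ v.1 v.2)
      (fun v => hz₂ v.1 v.2) ?_
    intro z hzz
    have h := hz (fun v => if h : v ∈ P then z ⟨v, h⟩ else 0) (fun w hw => by
      simp only [dif_pos hw]
      exact hzz ⟨w, hw⟩)
    rw [← Finset.prod_coe_sort] at h
    have hcongr : (∏ i : P, (if h : (i : HeightOneSpectrum (𝓞 K)) ∈ P then z ⟨i, h⟩ else 0)
        ^ e i) = ∏ i : P, z i ^ e i := by
      refine Finset.prod_congr rfl fun i _ => ?_
      simp only [dif_pos i.2, Subtype.coe_eta]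
    rw [hcongr] at h
    exact h

end Fermat.Agent.LT.T7.B981.H413

end
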